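import Fermat.Agent.LTG.H.Arch
import Fermat.Agent.LT.CuspUpper

/-!
# The spherical transform at parameter zero through the horospherical transform

`hhat0_eq_integral_gT` is the formula; `hhat0_pos` makes it positive for a suitable bump.
-/

set_option autoImplicit false
open MeasureTheory Filter Set Real
open scoped ContDiff

namespace Fermat.LTG.H

open Fermat.LT

/-- The distance from the base point in the coordinates. -/
noncomputable def cd1 (p : ℂ × ℝ) : ℝ := (Complex.normSq p.1 + 1 + p.2 ^ 2) / (2 * p.2)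

/-- The distance from the base point in coordinates. -/
lemma coshd_base_mk (p : ℂ × ℝ) (hp : 0 < p.2) :
    coshd ((1 : GL (Fin 2) ℂ) : H3) (H3.mk p.1 p.2) = cd1 p := by
  rw [coshd_eq_cd, coord_base, H3.coord_mk_of_pos p.1 hp, cd, zero_sub, Complex.normSq_neg, cd1]
  ring_nf

/-- The spherical transform at parameter zero is twice the integral of the horospherical
transform. -/
theorem hhat0_eq_integral_gT {k : ℝ → ℝ} (hk : Continuous k) (hs : HasCompactSupport k) :
    hhat0 k = 2 * ∫ l : ℝ, gT k l := by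
  set H : ℂ × ℝ → ℂ := fun p => (((p.2 ^ 3)⁻¹ * (k (cd1 p) * p.2) : ℝ) : ℂ) with hH
  have e0 : hhat0 k = ∫ p in (univ : Set ℂ) ×ˢ Ioi (0 : ℝ), H p := by
    rw [hhat0]
    refine setIntegral_congr_fun (MeasurableSet.univ.prod measurableSet_Ioi) fun p hp => ?_
    simp only [hH, coshd_base_mk p hp.2]
  -- integrability
  obtain ⟨R, hR⟩ := hs.isCompact.isBounded.exists_norm_le
  set B : ℝ := |R| + 1 with hBdef
  have hB : 0 < B := by positivity
  have hsupp : ∀ p : ℂ × ℝ, 0 < p.2 → H p ≠ 0 →
      p ∈ Metric.closedBall (0 : ℂ) (2 * B) ×ˢ Icc ((2 * B)⁻¹) (2 * B) := by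
    intro p hp hne
    have hk0 : k (cd1 p) ≠ 0 := fun h => hne (by simp [hH, h])
    have hle : cd1 p ≤ B := by
      have h1 := hR _ (subset_tsupport _ hk0)
      rw [Real.norm_eq_abs] at h1
      linarith [le_abs_self (cd1 p), le_abs_self R]
    rw [cd1, div_le_iff₀ (by positivity)] at hle
    have hn := Complex.normSq_nonneg p.1
    have ht : p.2 ≤ 2 * B := by nlinarith
    refine ⟨?_, ?_, ht⟩
    · rw [Metric.mem_closedBall, dist_zero_right]
      refine (sq_le_sq₀ (norm_nonneg _) (by positivity)).1 ?_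
      rw [← Complex.normSq_eq_norm_sq]
      nlinarith
    · rw [inv_le_iff_one_le_mul₀ (by positivity)]
      nlinarith
  have hcont : ContinuousOn H ((univ : Set ℂ) ×ˢ Ioi (0 : ℝ)) := by
    have hden : ∀ p ∈ (univ : Set ℂ) ×ˢ Ioi (0 : ℝ), (2 * p.2 : ℝ) ≠ 0 := fun p hp =>
      mul_ne_zero two_ne_zero (ne_of_gt hp.2)
    have hcd : ContinuousOn cd1 ((univ : Set ℂ) ×ˢ Ioi (0 : ℝ)) :=
      (((Complex.continuous_normSq.comp continuous_fst).add continuous_const).add
        (continuous_snd.pow 2)).continuousOn.div (by fun_prop) hden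
    refine Complex.continuous_ofReal.comp_continuousOn ?_
    exact ((continuous_snd.pow 3).continuousOn.inv₀ fun p hp => (pow_pos hp.2 3).ne').mul
      ((hk.comp_continuousOn hcd).mul continuous_snd.continuousOn)
  have hint : IntegrableOn H ((univ : Set ℂ) ×ˢ Ioi (0 : ℝ)) := by
    set C := Metric.closedBall (0 : ℂ) (2 * B) ×ˢ Icc ((2 * B)⁻¹) (2 * B) with hC
    have hCsub : C ⊆ (univ : Set ℂ) ×ˢ Ioi (0 : ℝ) := fun p hp =>
      ⟨trivial, lt_of_lt_of_le (by positivity) hp.2.1⟩
    have h1 : IntegrableOn H C :=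
      (hcont.mono hCsub).integrableOn_compact ((isCompact_closedBall _ _).prod isCompact_Icc)
    refine h1.of_forall_sdiff_eq_zero (MeasurableSet.univ.prod measurableSet_Ioi) fun p hp => ?_
    by_contra hne
    exact hp.2 (hsupp p hp.1.2 hne)
  have e1 : hhat0 k = ∫ t in Ioi (0 : ℝ), ∫ z : ℂ, H (z, t) := by
    rw [e0, Measure.volume_eq_prod, ← Measure.prod_restrict, Measure.restrict_univ,
      integral_prod_symm]
    rwa [IntegrableOn, Measure.volume_eq_prod, ← Measure.prod_restrict,
      Measure.restrict_univ] at hint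
  have e2 : ∀ t ∈ Ioi (0 : ℝ), ∫ z : ℂ, H (z, t) = ((2 * t⁻¹ : ℝ) : ℂ) * gT k (Real.log t) := by
    intro t ht
    have ht0 : (0 : ℝ) < t := ht
    have hsub :=
      Measure.integral_comp_smul (μ := (volume : Measure ℂ)) (fun z => H (z, t)) (Real.sqrt (2 * t))
    rw [Complex.finrank_real_complex, Real.sq_sqrt (by positivity), abs_inv,
      abs_of_pos (by positivity : (0:ℝ) < 2 * t)] at hsub
    have e : ∫ z : ℂ, H (z, t) = (2 * t) • ∫ z : ℂ, H (Real.sqrt (2 * t) • z, t) := by
      rw [hsub, smul_smul, mul_inv_cancel₀ (by positivity), one_smul]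
    rw [e, gT, ← integral_const_mul, ← integral_smul]
    refine integral_congr_ae (Eventually.of_forall fun z => ?_)
    have hcd : cd1 (Real.sqrt (2 * t) • z, t) = Complex.normSq z + cosh (Real.log t) := by
      rw [cd1, Complex.real_smul, Complex.normSq_mul, Complex.normSq_ofReal,
        Real.mul_self_sqrt (by positivity), cosh_log ht0]
      field_simp
      ring
    rw [Complex.real_smul] at hcd
    simp only [hH, Complex.real_smul, hcd]
    push_cast
    field_simp
  rw [e1, setIntegral_congr_fun measurableSet_Ioi e2, ← integral_const_mul]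
  have h := integral_image_eq_integral_abs_deriv_smul
    (MeasurableSet.univ : MeasurableSet (univ : Set ℝ))
    (fun x _ => (hasDerivAt_exp x).hasDerivWithinAt) (fun x _ y _ hxy => exp_injective hxy)
    (fun t : ℝ => ((2 * t⁻¹ : ℝ) : ℂ) * gT k (Real.log t))
  rw [image_univ, range_exp, Measure.restrict_univ] at h
  rw [h]
  refine integral_congr_ae (Eventually.of_forall fun l => ?_)
  simp only [log_exp, Complex.real_smul, abs_of_pos (exp_pos l)]
  push_cast
  have := Real.exp_pos l
  field_simp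

/-- The shifted kernels share the spherical transform at parameter zero. -/
theorem hhat0_radG_arShift {G : ℝ → ℝ} {δ : ℝ} (hG : ContDiff ℝ ∞ G) (hc : HasCompactSupport G)
    (hsupp : ∀ x, cosh δ < x → G x = 0) (hδ : 0 ≤ δ) {s : ℝ} (hδs : s = 0 ∨ δ < |s|) :
    hhat0 (radG (arShift G s)) = ((2 * ∫ l : ℝ, G (cosh l) : ℝ) : ℂ) := by
  rw [hhat0_eq_integral_gT (contDiff_radG (contDiff_arShift hG hsupp hδ hδs)).continuous
    (hasCompactSupport_radG (hasCompactSupport_arShift hc hsupp))]
  simp only [gT_arShift hG hc hsupp hδ hδs]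
  rw [integral_complex_ofReal]
  push_cast
  congr 2
  set g : ℝ → ℝ := fun l => G (cosh l) with hg
  have hgc : HasCompactSupport g := by
    refine HasCompactSupport.intro (isCompact_Icc (a := -δ) (b := δ)) fun l hl => hsupp _ ?_
    refine cosh_lt_cosh.2 ?_
    rw [abs_of_nonneg hδ]
    by_contra h
    exact hl ⟨(abs_le.1 (not_lt.1 h)).1, (abs_le.1 (not_lt.1 h)).2⟩
  have hgi : Integrable g :=
    (hG.continuous.comp continuous_cosh).integrable_of_hasCompactSupport hgc
  change ∫ l, (g (l - s) + g (l + s)) / 2 = ∫ l, g l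
  rw [integral_div, integral_add (hgi.comp_sub_right s) (hgi.comp_add_right s),
    integral_sub_right_eq_self, integral_add_right_eq_self]
  ring

/-- The integral of a nonnegative bump equal to one at the origin is positive. -/
theorem hhat0_pos {G : ℝ → ℝ} {δ : ℝ} (hG : ContDiff ℝ ∞ G) (hsupp : ∀ x, cosh δ < x → G x = 0)
    (hδ : 0 ≤ δ) (h0 : ∀ x, 0 ≤ G x) (h1 : G 1 = 1) : 0 < ∫ l : ℝ, G (cosh l) := by
  have hgc : HasCompactSupport fun l : ℝ => G (cosh l) := by
    refine HasCompactSupport.intro (isCompact_Icc (a := -δ) (b := δ)) fun l hl => hsupp _ ?_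
    refine cosh_lt_cosh.2 ?_
    rw [abs_of_nonneg hδ]
    by_contra h
    exact hl ⟨(abs_le.1 (not_lt.1 h)).1, (abs_le.1 (not_lt.1 h)).2⟩
  refine ((hG.continuous.comp continuous_cosh).integral_pos_of_hasCompactSupport_nonneg_nonzero hgc
    (fun l => h0 _) (x := 0) ?_)
  simp [h1]

end Fermat.LTG.H
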