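import Fermat.Agent.LTG.Const
import Mathlib.Analysis.SpecialFunctions.Arcosh

/-!
# Radial kernels with shifted horospherical transform

A radial kernel is determined by its horospherical transform `l ↦ gT f l`.  The transforms used are
`l ↦ (g (l - s) + g (l + s)) / 2` for an even bump `g` of small support.
-/

set_option autoImplicit false
open MeasureTheory Filter Set Topology Real
open scoped ContDiff

namespace Fermat.LTG.H

open Fermat.LT

/-- The radial function with horospherical transform `G ∘ cosh`. -/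
noncomputable def radG (G : ℝ → ℝ) (x : ℝ) : ℝ := -deriv G x / π

/-- The radial function of a smooth transform is smooth. -/
lemma contDiff_radG {G : ℝ → ℝ} (hG : ContDiff ℝ ∞ G) : ContDiff ℝ ∞ (radG G) :=
  ((contDiff_infty_iff_deriv.1 hG).2.neg).div_const _

/-- The radial function of a compactly supported transform has compact support. -/
lemma hasCompactSupport_radG {G : ℝ → ℝ} (hs : HasCompactSupport G) :
    HasCompactSupport (radG G) :=
  hs.deriv.comp_left (g := fun y : ℝ => -y / π) (by simp)

/-- The constructed radial function has the prescribed horospherical transform. -/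
theorem gT_radG {G : ℝ → ℝ} (hG : ContDiff ℝ ∞ G) (hs : HasCompactSupport G) (l : ℝ) :
    gT (radG G) l = (G (cosh l) : ℂ) := by
  have hvol : (volume : Measure ℂ).real (Metric.ball 0 1) = π := by
    rw [measureReal_def, Complex.volume_ball]
    simp
  have e : gT (radG G) l = ((∫ u : ℂ, radG G (‖u‖ ^ 2 + cosh l)) : ℝ) := by
    rw [gT, ← integral_complex_ofReal]
    simp [Complex.normSq_eq_norm_sq]
  -- polar coordinates
  rw [e, integral_fun_norm_addHaar (μ := (volume : Measure ℂ))
    (fun y => radG G (y ^ 2 + cosh l)), Complex.finrank_real_complex, hvol]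
  congr 1
  set c := cosh l
  have hd : ∀ x : ℝ, HasDerivAt (fun y : ℝ => -G (y ^ 2 + c) / (2 * π))
      (x * radG G (x ^ 2 + c)) x := by
    intro x
    have h1 : HasDerivAt (fun y : ℝ => y ^ 2 + c) (2 * x) x := by
      simpa using (hasDerivAt_pow 2 x).add_const c
    have h2 : HasDerivAt (fun y : ℝ => G (y ^ 2 + c)) (deriv G (x ^ 2 + c) * (2 * x)) x :=
      ((hG.differentiable (by simp)).differentiableAt.hasDerivAt).comp x h1
    refine (h2.neg.div_const (2 * π)).congr_deriv ?_
    rw [radG]
    field_simp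
  have hc : Continuous fun x : ℝ => x * radG G (x ^ 2 + c) :=
    continuous_id.mul ((contDiff_radG hG).continuous.comp (by fun_prop))
  obtain ⟨B, hB⟩ := hs.isCompact.bddAbove
  have hzero : ∀ y, max 0 (B - c) + 1 < y → G (y ^ 2 + c) = 0 := fun y hy =>
    image_eq_zero_of_notMem_tsupport fun hm => by
      have := hB hm
      have h1 : 1 < y := by linarith [le_max_left (0 : ℝ) (B - c)]
      nlinarith [le_max_right (0 : ℝ) (B - c)]
  have hint : IntegrableOn (fun x : ℝ => x * radG G (x ^ 2 + c)) (Ioi 0) := by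
    refine (Continuous.integrable_of_hasCompactSupport hc ?_).integrableOn
    obtain ⟨R, hR⟩ := (hasCompactSupport_radG hs).isCompact.isBounded.exists_norm_le
    refine HasCompactSupport.intro (isCompact_closedBall (0 : ℝ) (|R| + |c| + 1)) fun x hx => ?_
    refine mul_eq_zero_of_right _ (image_eq_zero_of_notMem_tsupport fun hm => ?_)
    have h1 := hR _ hm
    rw [Metric.mem_closedBall, dist_zero_right, Real.norm_eq_abs, not_le] at hx
    rw [Real.norm_eq_abs] at h1
    have h2 := le_abs_self (x ^ 2 + c)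
    nlinarith [neg_abs_le c, le_abs_self R, sq_abs x, mul_self_nonneg (|x| - 1)]
  -- integrate the derivative
  have key : ∫ y in Ioi (0 : ℝ), y * radG G (y ^ 2 + c) = G c / (2 * π) := by
    rw [integral_Ioi_of_hasDerivAt_of_tendsto' (fun x _ => hd x) hint (m := 0) ?_]
    · simp; ring
    · refine tendsto_const_nhds.congr' ?_
      filter_upwards [eventually_gt_atTop (max 0 (B - c) + 1)] with y hy
      rw [hzero y hy]; simp
  simp only [Nat.reduceSub, pow_one, smul_eq_mul, key, nsmul_eq_mul]
  push_cast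
  field_simp

/-- The symmetrised shift in the variable `cosh l`. -/
noncomputable def arShift (G : ℝ → ℝ) (s x : ℝ) : ℝ :=
  if s = 0 then G x
  else if x ≤ 1 then 0 else (G (cosh (arcosh x - s)) + G (cosh (arcosh x + s))) / 2

variable {G : ℝ → ℝ} {δ : ℝ}

/-- The symmetrised shift vanishes near the origin. -/
lemma arShift_eq_zero (hsupp : ∀ x, cosh δ < x → G x = 0) {s : ℝ} (hs : s ≠ 0)
    (hδs : δ < |s|) (hδ : 0 ≤ δ) {x : ℝ} (hx : x < cosh (|s| - δ)) : arShift G s x = 0 := by
  rw [arShift, if_neg hs]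
  split_ifs with h1
  · rfl
  · rw [not_le] at h1
    have ha : arcosh x < |s| - δ := by
      by_contra hle
      rw [not_lt] at hle
      have := cosh_le_cosh.2 (show |(|s| - δ)| ≤ |arcosh x| by
        rw [abs_of_nonneg (by linarith)]; exact hle.trans (le_abs_self _))
      rw [cosh_arcosh h1.le] at this
      linarith
    have h0 : 0 ≤ arcosh x := arcosh_nonneg h1.le
    have hz : ∀ t : ℝ, δ < |t| → G (cosh t) = 0 := fun t ht =>
      hsupp _ (cosh_lt_cosh.2 (by rwa [abs_of_nonneg hδ]))
    rcases le_or_gt 0 s with hs0 | hs0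
    · rw [abs_of_nonneg hs0] at ha hδs
      rw [hz _ (by rw [abs_of_nonpos (by linarith)]; linarith),
        hz _ (by rw [abs_of_nonneg (by linarith)]; linarith)]
      norm_num
    · rw [abs_of_neg hs0] at ha hδs
      rw [hz _ (by rw [abs_of_nonneg (by linarith)]; linarith),
        hz _ (by rw [abs_of_nonpos (by linarith)]; linarith)]
      norm_num

/-- The symmetrised shift is smooth. -/
lemma contDiff_arShift (hG : ContDiff ℝ ∞ G) (hsupp : ∀ x, cosh δ < x → G x = 0) (hδ : 0 ≤ δ)
    {s : ℝ} (hδs : s = 0 ∨ δ < |s|) : ContDiff ℝ ∞ (arShift G s) := by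
  rcases eq_or_ne s 0 with rfl | hs
  · have : arShift G 0 = G := funext fun x => by rw [arShift, if_pos rfl]
    rwa [this]
  have hδs' : δ < |s| := hδs.resolve_left hs
  refine contDiff_iff_contDiffAt.2 fun x => ?_
  by_cases hx : x < cosh (|s| - δ)
  · refine (contDiffAt_const (c := (0 : ℝ))).congr_of_eventuallyEq ?_
    filter_upwards [Iio_mem_nhds hx] with y hy
    exact arShift_eq_zero hsupp hs hδs' hδ hy
  · rw [not_lt] at hx
    have h1 : 1 < x := (one_lt_cosh.2 (by linarith : |s| - δ ≠ 0)).trans_le hx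
    have ha : ContDiffAt ℝ ∞ arcosh x := contDiffAt_arcosh h1
    refine ContDiffAt.congr_of_eventuallyEq
      (f := fun y => (G (cosh (arcosh y - s)) + G (cosh (arcosh y + s))) / 2) ?_ ?_
    · exact ((hG.contDiffAt.comp x (contDiff_cosh.contDiffAt.comp x (ha.sub contDiffAt_const))).add
        (hG.contDiffAt.comp x
          (contDiff_cosh.contDiffAt.comp x (ha.add contDiffAt_const)))).div_const 2
    · filter_upwards [Ioi_mem_nhds h1] with y hy
      rw [arShift, if_neg hs, if_neg (not_le.2 (mem_Ioi.1 hy))]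

/-- The symmetrised shift has compact support. -/
lemma hasCompactSupport_arShift (hc : HasCompactSupport G) (hsupp : ∀ x, cosh δ < x → G x = 0)
    {s : ℝ} : HasCompactSupport (arShift G s) := by
  rcases eq_or_ne s 0 with rfl | hs
  · have : arShift G 0 = G := funext fun x => by rw [arShift, if_pos rfl]
    rwa [this]
  refine HasCompactSupport.intro (isCompact_Icc (a := (1 : ℝ)) (b := cosh (|s| + |δ|)))
    fun x hx => ?_
  rw [arShift, if_neg hs]
  split_ifs with h1
  · rfl
  · rw [not_le] at h1
    have h2 : cosh (|s| + |δ|) < x := by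
      by_contra h
      exact hx ⟨h1.le, not_lt.1 h⟩
    have ha : |s| + |δ| < arcosh x := by
      by_contra hle
      rw [not_lt] at hle
      have := cosh_le_cosh.2 (show |arcosh x| ≤ |(|s| + |δ|)| by
        rw [abs_of_nonneg (arcosh_nonneg h1.le)]; exact hle.trans (le_abs_self _))
      rw [cosh_arcosh h1.le] at this
      linarith
    have hz : ∀ t : ℝ, |δ| < t → G (cosh t) = 0 := fun t ht =>
      hsupp _ (cosh_lt_cosh.2 (lt_of_lt_of_le ht (le_abs_self t)))
    rw [hz _ (by linarith [le_abs_self s]), hz _ (by linarith [neg_abs_le s])]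
    norm_num

/-- The radial function of a shift has the symmetrised shift of the bump as transform. -/
theorem gT_arShift (hG : ContDiff ℝ ∞ G) (hc : HasCompactSupport G)
    (hsupp : ∀ x, cosh δ < x → G x = 0) (hδ : 0 ≤ δ) {s : ℝ} (hδs : s = 0 ∨ δ < |s|) (l : ℝ) :
    gT (radG (arShift G s)) l = (((G (cosh (l - s)) + G (cosh (l + s))) / 2 : ℝ) : ℂ) := by
  rw [gT_radG (contDiff_arShift hG hsupp hδ hδs) (hasCompactSupport_arShift hc hsupp)]
  congr 1
  rcases eq_or_ne s 0 with rfl | hs
  · rw [arShift, if_pos rfl, sub_zero, add_zero]; ring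
  have hδs' : δ < |s| := hδs.resolve_left hs
  rw [← cosh_abs l, arShift, if_neg hs]
  have hz : ∀ t : ℝ, δ < |t| → G (cosh t) = 0 := fun t ht =>
    hsupp _ (cosh_lt_cosh.2 (by rwa [abs_of_nonneg hδ]))
  rcases eq_or_ne l 0 with rfl | hl
  · rw [abs_zero, cosh_zero, if_pos le_rfl, zero_sub, zero_add, cosh_neg, hz _ hδs']
    norm_num
  rw [if_neg (not_le.2 (one_lt_cosh.2 (abs_ne_zero.2 hl))), arcosh_cosh (abs_nonneg l)]
  rcases le_or_gt 0 l with h | h
  · rw [abs_of_nonneg h]
  · rw [abs_of_neg h, show -l - s = -(l + s) by ring, show -l + s = -(l - s) by ring, cosh_neg,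
      cosh_neg, add_comm]

/-- A smooth nonnegative bump at `1`, zero beyond `cosh δ`, exists. -/
theorem exists_bump {δ : ℝ} (hδ : 0 < δ) : ∃ G : ℝ → ℝ, ContDiff ℝ ∞ G ∧ HasCompactSupport G ∧
    (∀ x, cosh δ < x → G x = 0) ∧ (∀ x, 0 ≤ G x) ∧ G 1 = 1 := by
  have h : 0 < cosh δ - 1 := sub_pos.2 (one_lt_cosh.2 hδ.ne')
  let f : ContDiffBump (1 : ℝ) := ⟨(cosh δ - 1) / 2, cosh δ - 1, by linarith, by linarith⟩
  refine ⟨f, f.contDiff, f.hasCompactSupport, fun x hx => ?_, f.nonneg', ?_⟩
  · refine f.zero_of_le_dist ?_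
    change cosh δ - 1 ≤ dist x 1
    rw [Real.dist_eq, abs_of_pos (by linarith)]
    linarith
  · exact f.one_of_mem_closedBall (Metric.mem_closedBall_self f.rIn_pos.le)

end Fermat.LTG.H
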