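import Fermat.Agent.LTG.H.Op
import Fermat.Agent.LTG.ConstForm

/-!
# The operator `h`: boundedness, symmetry, existence

`bdd` is the boundedness of the kernel of `h`; `exists_data` gives data from an element congruent
to one at the level.
-/

set_option autoImplicit false
open NumberField MeasureTheory Set Real
open scoped Classical

namespace Fermat.LTG.H

open Fermat.LT

variable {F : Type*} [Field F] [NumberField F] {S : Lev F}

namespace Data

variable (H : Data F S)

/-- The archimedean factors of the operator are radial. -/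
lemma ker_arch (i : Fin H.ker.n) (w : InfinitePlace F) (x y : H3) :
    (H.ker.ker i).arch w x y = (H.kerRad i w (coshd x y) : ℂ) := rfl

/-- **The operator is bounded.** The kernel of `h` is bounded. -/
theorem bdd [IsTotallyComplex F] : H.ker.Bdd :=
  SKer.bdd_of_zeroCTO H.ker H.kerRad (fun _ w => H.contDiff_radF _ w)
    (fun _ w => H.hasCompactSupport_radF _ w) H.ker_arch H.hasZeroCTO

end Data

/-- A diagonal matrix with a unit close to one lies in the congruence group. -/
lemma upMat_mem_UN {v : Place F} {n : ℕ} {a : Fˣ} (hu : v.valuation F (a : F) = 1)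
    (h : v.valuation F ((a : F) - 1) ≤ WithZero.exp (-(n : ℤ))) :
    upMat a 0 ∈ UN (v.valuation F) n := by
  refine mem_UN_of_congN _ ⟨upMat_mem_intGL _ hu (by simp), fun i j => ?_⟩
  fin_cases i <;> fin_cases j <;> simp [-WithZero.exp_neg, h]

/-- An element congruent to one at the level gives the data. -/
theorem exists_data (S : Lev F) (a : Fˣ)
    (ha : ∀ v, v ∈ S → v.valuation F ((a : F) - 1) ≤ WithZero.exp (-(S.depth v : ℤ))) :
    ∃ H : Data F S, H.α = a ∧ (∀ v, v ∈ H.T ↔ ord (v.valuation F) (a : F) ≠ 0) ∧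
      0 < ∫ l : ℝ, H.G (cosh l) := by
  have hfin : {v : Place F | ord (v.valuation F) (a : F) ≠ 0}.Finite :=
    (finite_vabs_ne_one a.ne_zero).subset fun v hv h =>
      hv ((ord_eq_zero_iff _ a.ne_zero).2 ((vabs_eq_one_iff v a.ne_zero).1 h))
  have hunit : ∀ v, v ∈ S → v.valuation F (a : F) = 1 := fun v hv => by
    have h1 : v.valuation F ((a : F) - 1) < 1 := lt_of_le_of_lt (ha v hv) (by
      rw [← WithZero.exp_zero, WithZero.exp_lt_exp]
      exact neg_neg_of_pos (Int.natCast_pos.2 (Nat.pos_of_ne_zero hv)))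
    have h2 := (v.valuation F).map_one_add_of_lt h1
    rwa [add_sub_cancel] at h2
  obtain ⟨d, hd, hdw⟩ : ∃ d : ℝ, 0 < d ∧
      ∀ w : InfinitePlace F, Real.log (w (a : F)) = 0 ∨ d < |Real.log (w (a : F))| := by
    set Z := (Finset.univ : Finset (InfinitePlace F)).filter fun w => Real.log (w (a : F)) ≠ 0
    rcases Z.eq_empty_or_nonempty with h | h
    · refine ⟨1, one_pos, fun w => Or.inl ?_⟩
      by_contra hw
      exact Finset.eq_empty_iff_forall_notMem.1 h w (Finset.mem_filter.2 ⟨Finset.mem_univ _, hw⟩)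
    · obtain ⟨w₀, hw₀, hmin⟩ := Z.exists_min_image (fun w => |Real.log (w (a : F))|) h
      have hp : 0 < |Real.log (w₀ (a : F))| := abs_pos.2 (Finset.mem_filter.1 hw₀).2
      refine ⟨|Real.log (w₀ (a : F))| / 2, by positivity, fun w => ?_⟩
      rw [or_iff_not_imp_left]
      intro hw
      linarith [hmin w (Finset.mem_filter.2 ⟨Finset.mem_univ _, hw⟩)]
  obtain ⟨G, hG, hGc, hGs, hG0, hG1⟩ := exists_bump hd
  refine ⟨⟨a, hfin.toFinset, fun v hv hS => ?_, fun v hv => ?_, G, d, hd.le, hdw, hG,
    hGc, hGs⟩, rfl, fun v => hfin.mem_toFinset, hhat0_pos hG hGs hd.le hG0 hG1⟩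
  · exact hfin.mem_toFinset.1 hv ((ord_eq_zero_iff _ a.ne_zero).2 (hunit v hS))
  · rw [hfin.mem_toFinset, Set.mem_ofPred_eq, not_not, ord_eq_zero_iff _ a.ne_zero] at hv
    refine upMat_mem_UN hv ?_
    by_cases hS : v ∈ S
    · exact ha v hS
    · rw [Lev.notMem_iff.1 hS, Nat.cast_zero, neg_zero, WithZero.exp_zero]
      exact ((v.valuation F).map_sub _ _).trans (max_le hv.le (map_one _).le)

end Fermat.LTG.H
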