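import Fermat.Agent.LTG.SphKer
import Fermat.Agent.LTG.Height
import Fermat.Agent.LT.HypLocal

/-!
# Sums of spherical kernels over horocycles

The cosets at a place off the level split into horocycles by the order of the diagonal entry.  The
sum of `sphKer p` over a horocycle is a coefficient of the Satake transform.
-/

set_option autoImplicit false
open IsDedekindDomain NumberField Polynomial
open scoped Classical

namespace Fermat.LTG.H

open Fermat.LT

variable {F : Type*} [Field F] [NumberField F] {S : Lev F} {v : Place F}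

/-- The index of the horocycle of a coset. -/
noncomputable def hidx (y : Vert S v) : ℤ :=
  ord (v.valuation F) ((exists_upMat_mod_U0 (v.valuation F) y.out).choose : F)

/-- The norm of a place exceeds one. -/
lemma pnorm_gt_one (v : Place F) : (1 : ℝ) < pnorm v := by
  exact_mod_cast HeightOneSpectrum.one_lt_absNorm v

/-- The height of `∞` is the norm to the index of the horocycle. -/
lemma nloc_eq_zpow_hidx (y : Vert S v) :
    nloc v (eInf : Fin 2 → F) y = (pnorm v : ℝ) ^ hidx y := by
  obtain ⟨x, hx⟩ := (exists_upMat_mod_U0 (v.valuation F) y.out).choose_spec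
  set a := (exists_upMat_mod_U0 (v.valuation F) y.out).choose with ha
  have e : y.out = upMat a x * ((upMat a x)⁻¹ * y.out) := by group
  rw [nloc, e, nfin_mul_U0 v _ _ hx, nfin_eInf_upMat, vabs_eq v a.ne_zero, ← zpow_neg, neg_neg]
  rfl

/-- A triangular coset lies in the horocycle of the order of its diagonal entry. -/
lemma hidx_upMat (a : Fˣ) (x : F) :
    hidx ((upMat a x : GL (Fin 2) F) : Vert S v) = ord (v.valuation F) (a : F) := by
  have h := nloc_eq_zpow_hidx ((upMat a x : GL (Fin 2) F) : Vert S v)
  rw [nloc_mk, nfin_eInf_upMat, vabs_eq v a.ne_zero, ← zpow_neg, neg_neg] at h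
  exact (zpow_right_injective₀ (lt_trans one_pos (pnorm_gt_one v)) (pnorm_gt_one v).ne' h).symm

/-- The base coset has index zero. -/
lemma hidx_base : hidx ((1 : GL (Fin 2) F) : Vert S v) = 0 := by
  rw [← upMat_one, hidx_upMat]
  simp [ord]

/-- Triangular translations shift the horocycle index by the order of `a`. -/
lemma hidx_smul (a : Fˣ) (x : F) (y : Vert S v) :
    hidx (upMat a x • y) = ord (v.valuation F) (a : F) + hidx y := by
  refine zpow_right_injective₀ (lt_trans one_pos (pnorm_gt_one v)) (pnorm_gt_one v).ne' ?_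
  change (pnorm v : ℝ) ^ _ = (pnorm v : ℝ) ^ _
  rw [← nloc_eq_zpow_hidx, zpow_add₀ (by linarith [pnorm_gt_one v]), ← nloc_eq_zpow_hidx]
  obtain ⟨g, rfl⟩ := QuotientGroup.mk_surjective y
  rw [MulAction.Quotient.smul_coe, nloc_mk, nloc_mk, smul_eq_mul, nfin_mul_left, eInf_vecMul_upMat,
    show ((upMat a x : GL (Fin 2) F) : Matrix (Fin 2) (Fin 2) F).det = (a : F) by
      simp [Matrix.det_fin_two], vabs_eq v a.ne_zero, zpow_neg, div_inv_eq_mul, mul_comm]

variable (hv : v ∉ S)
include hv

/-- A representative by an upper triangular matrix. -/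
lemma exists_upMat_coset (y : Vert S v) :
    ∃ (a : Fˣ) (x : F), y = ((upMat a x : GL (Fin 2) F) : Vert S v) := by
  obtain ⟨a, x, h⟩ := exists_upMat_mod_U0 (v.valuation F) y.out
  refine ⟨a, x, ?_⟩
  conv_lhs => rw [← QuotientGroup.out_eq' y]
  rw [QuotientGroup.eq]
  have := (U0 _).inv_mem h
  rw [mul_inv_rev, inv_inv] at this
  exact (lev_of_not_mem hv).ge this

/-- The orbit of the translations is the horocycle. -/
theorem range_unip (u : Vert S v) :
    Set.range (fun x : F => upMat (1 : Fˣ) x • u) = {c | hidx c = hidx u} := by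
  ext c
  constructor
  · rintro ⟨x, rfl⟩
    simp [hidx_smul, ord]
  · intro hc
    obtain ⟨a, x, rfl⟩ := exists_upMat_coset hv u
    obtain ⟨a', x', rfl⟩ := exists_upMat_coset hv c
    simp only [Set.mem_ofPred_eq, hidx_upMat] at hc
    refine ⟨x' - x, ?_⟩
    simp only [MulAction.Quotient.smul_coe, smul_eq_mul, upMat_mul, one_mul, Units.val_one,
      add_sub_cancel, QuotientGroup.eq, lev_of_not_mem hv, upMat_inv]
    refine le_withScalars _ (upMat_mem_intGL _ ?_ ?_)
    · rw [Units.val_mul, map_mul, Units.val_inv_eq_inv_val, map_inv₀, v_eq_exp _ a.ne_zero,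
        v_eq_exp _ a'.ne_zero, hc, ← WithZero.exp_neg, ← WithZero.exp_add, neg_add_cancel,
        WithZero.exp_zero]
    · rw [show ((a⁻¹ : Fˣ) : F) * x' + -((a⁻¹ : Fˣ) : F) * x' = 0 by ring, map_zero]
      exact zero_le

/-- One neighbour goes down, `q` go up. -/
theorem row_X_eq (y : Vert S v) :
    ∃ (κ : Type) (_ : Fintype κ) (nb : Option κ → Vert S v), Fintype.card κ = pnorm v ∧
      Function.Injective nb ∧ (sphKer hv X).row y = Finset.univ.image nb ∧
      hidx (nb none) = hidx y - 1 ∧ ∀ r, hidx (nb (some r)) = hidx y + 1 := by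
  obtain ⟨a, x, rfl⟩ := exists_upMat_coset hv y
  obtain ⟨ϖ₀, hϖ₀⟩ := v.valuation_exists_uniformizer F
  have hϖ0 : ϖ₀ ≠ 0 := fun h => by rw [h, map_zero] at hϖ₀; exact WithZero.exp_ne_zero hϖ₀.symm
  set ϖ : Fˣ := Units.mk0 ϖ₀ hϖ0
  have hϖ : v.valuation F (ϖ : F) = WithZero.exp (-1 : ℤ) := hϖ₀
  have hordϖ : ord (v.valuation F) (ϖ : F) = 1 := by rw [ord, hϖ]; simp
  have hq : Nat.card (IsLocalRing.ResidueField (v.valuation F).valuationSubring) = pnorm v :=
    natCard_residue v
  have : Finite (IsLocalRing.ResidueField (v.valuation F).valuationSubring) :=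
    Nat.finite_of_card_ne_zero (by
      rw [hq]; exact (Nat.zero_lt_of_lt (HeightOneSpectrum.one_lt_absNorm v)).ne')
  set κ := IsLocalRing.ResidueField (v.valuation F).valuationSubring
  let e := Finite.equivFin κ
  choose rep hrep using IsLocalRing.residue_surjective
    (R := (v.valuation F).valuationSubring)
  let rp : Fin (Nat.card κ) → (v.valuation F).valuationSubring := fun i => rep (e.symm i)
  -- the candidates: one neighbour of index one less, one for each residue of index one more
  let nb : Option (Fin (Nat.card κ)) → Vert S v := fun o => o.elim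
    ((upMat (a * ϖ⁻¹) x : GL (Fin 2) F) : Vert S v)
    fun r => ((upMat (a * ϖ) (x + (a : F) * (rp r : F)) : GL (Fin 2) F) : Vert S v)
  have hinj : Function.Injective nb := by
    have key : ∀ (b b' : Fˣ) (x x' : F),
        ((upMat b x : GL (Fin 2) F) : Vert S v) = ((upMat b' x' : GL (Fin 2) F) : Vert S v) →
        ord (v.valuation F) (b : F) = ord (v.valuation F) (b' : F) :=
      fun b b' x x' h => by rw [← hidx_upMat (S := S) b x, h, hidx_upMat]
    rintro (_ | r) (_ | s) h <;> simp only [nb, Option.elim] at h
    · rfl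
    · have := key _ _ _ _ h
      rw [Units.val_mul, Units.val_mul, ord_mul _ a.ne_zero (Units.ne_zero _),
        ord_mul _ a.ne_zero (Units.ne_zero _), Units.val_inv_eq_inv_val, ord_inv, hordϖ] at this
      omega
    · have := key _ _ _ _ h
      rw [Units.val_mul, Units.val_mul, ord_mul _ a.ne_zero (Units.ne_zero _),
        ord_mul _ a.ne_zero (Units.ne_zero _), Units.val_inv_eq_inv_val, ord_inv, hordϖ] at this
      omega
    · congr 1
      rw [QuotientGroup.eq] at h
      have h' := (lev_of_not_mem hv).le h
      rw [upMat_inv, upMat_mul, inv_mul_cancel,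
        show (((a * ϖ)⁻¹ : Fˣ) : F) * (x + (a : F) * (rp s : F))
            + -(((a * ϖ)⁻¹ : Fˣ) : F) * (x + (a : F) * (rp r : F))
          = ((rp s - rp r : (v.valuation F).valuationSubring) : F) / (ϖ : F) by
            rw [mul_inv_rev, Units.val_mul, Units.val_inv_eq_inv_val, Units.val_inv_eq_inv_val]
            push_cast
            field_simp
            ring] at h'
      have h2 := (v_quad_le (v.valuation F)
        (upMat (1 : Fˣ) (((rp s - rp r : (v.valuation F).valuationSubring) : F) / (ϖ : F)))
          ((0, 1), (1, 1)))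
      rw [(lvl_eq_zero_iff _ _).2 h'] at h2
      have e2 : ∀ z : F, quad (upMat (1 : Fˣ) z) ((0, 1), (1, 1)) = z := fun z => by
        simp [quad, Matrix.det_fin_two_of]
      rw [e2, Nat.cast_zero, WithZero.exp_zero, map_div₀, hϖ,
        div_le_one₀ WithZero.exp_pos] at h2
      have h4 : v.valuation F ((rp s - rp r : (v.valuation F).valuationSubring) : F) < 1 :=
        lt_of_le_of_lt h2 (by rw [← WithZero.exp_zero, WithZero.exp_lt_exp]; omega)
      have h5 := (residue_eq_zero_iff_v (v.valuation F) _).2 h4
      simp only [rp, map_sub, hrep, sub_eq_zero] at h5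
      exact (e.symm.injective h5).symm
  refine ⟨Fin (Nat.card κ), inferInstance, nb, by rw [Fintype.card_fin, hq], hinj, ?_, ?_, ?_⟩
  -- they are neighbours, and there are exactly `q + 1` neighbours
  · obtain ⟨T, hT⟩ := exists_vtree (S := S) hv
    refine (Finset.eq_of_subset_of_card_le ?_ ?_).symm
    · intro z hz
      obtain ⟨o, -, rfl⟩ := Finset.mem_image.1 hz
      rw [mem_row_sphKer_X hv]
      rcases o with _ | r <;> simp only [nb, Option.elim] <;>
        rw [vd_mk, ← isStep_iff_lvl, upMat_inv, upMat_mul, inv_mul_cancel_left]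
      · have h1 : v.valuation F (ϖ₀ : F) ≤ 1 := by
          rw [hϖ₀, ← WithZero.exp_zero, WithZero.exp_le_exp]; omega
        refine ⟨ϖ, fun i j => ?_, ?_⟩
        · rw [show ((a⁻¹ : Fˣ) : F) * x + -((a⁻¹ : Fˣ) : F) * x = 0 by ring,
            Units.val_mul, scal_coe, coe_upMat, Matrix.scalar_apply, Matrix.diagonal_mul]
          fin_cases i <;> fin_cases j <;> simp [h1, ϖ, hϖ0]
        · rw [Units.val_mul, scal_coe, coe_upMat, Matrix.det_mul,
            Matrix.scalar_apply, Matrix.det_diagonal, Matrix.det_fin_two_of]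
          simp [ϖ, hϖ₀]
          rw [← WithZero.exp_neg, ← WithZero.exp_add, ← WithZero.exp_neg]; norm_num
      · have h1 : v.valuation F (ϖ₀ : F) ≤ 1 := by
          rw [hϖ₀, ← WithZero.exp_zero, WithZero.exp_le_exp]; omega
        refine ⟨1, fun i j => ?_, ?_⟩
        · rw [show scal (1 : Fˣ) = (1 : GL (Fin 2) F) by simp [scal], one_mul,
            show ((a⁻¹ : Fˣ) : F) * (x + (a : F) * (rp r : F)) + -((a⁻¹ : Fˣ) : F) * x =
                (rp r : F) by
              rw [mul_add, ← mul_assoc, Units.inv_mul, one_mul]; ring, coe_upMat]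
          fin_cases i <;> fin_cases j <;> simp [h1, ϖ]
          exact (rp r).2
        · rw [show scal (1 : Fˣ) = (1 : GL (Fin 2) F) by simp [scal], one_mul,
            coe_upMat, Matrix.det_fin_two_of]
          simp [ϖ, hϖ₀]
    · rw [Finset.card_image_of_injective _ hinj, Finset.card_univ, Fintype.card_option,
        Fintype.card_fin, hq]
      refine le_of_eq ?_
      have h := T.nbr_card ((upMat a x : GL (Fin 2) F) : Vert S v)
      rw [hT] at h
      rw [← h, ← Set.ncard_coe_finset]
      congr 1
      ext b
      simp [mem_row_sphKer_X hv]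
  · simp only [nb, Option.elim]
    rw [hidx_upMat, hidx_upMat, Units.val_mul, ord_mul _ a.ne_zero (Units.ne_zero _),
      Units.val_inv_eq_inv_val, ord_inv, hordϖ]
    omega
  · intro r
    simp only [nb, Option.elim]
    rw [hidx_upMat, hidx_upMat, Units.val_mul, ord_mul _ a.ne_zero (Units.ne_zero _), hordϖ]

/-- Sum of a spherical kernel over a horocycle. -/
noncomputable def horoSum (p : ℂ[X]) (y : Vert S v) (j : ℤ) : ℂ :=
  ∑ᶠ c ∈ {c : Vert S v | hidx c = j}, sphKer hv p y c

/-- Horocycle sums recurse along the adjacency operator. -/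
lemma horoSum_X_mul (p : ℂ[X]) (y : Vert S v) (j : ℤ) :
    horoSum hv (X * p) y j = ∑ b ∈ (sphKer hv X).row y, horoSum hv p b j := by
  have key : ∀ c, sphKer hv (X * p) y c = ∑ b ∈ (sphKer hv X).row y, sphKer hv p b c := fun c => by
    rw [← sphKer_X_comp, LKer.comp_eq_sum]
    refine Finset.sum_congr rfl fun b hb => ?_
    rw [mem_row_sphKer_X hv] at hb
    rw [sphKer_apply hv X, kern_X, if_pos hb, one_mul]
  simp only [horoSum, finsum_mem_def]
  rw [← finsum_sum_comm _ _ fun b _ => ((sphKer hv p).finite_row b).subset fun c hc => ?_]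
  · refine finsum_congr fun c => ?_
    simp only [Set.indicator_apply]
    split_ifs with h
    · exact key c
    · simp
  · simp only [Function.mem_support, Set.indicator_apply] at hc
    exact fun h => hc (by simp [h])

/-- **The sum over a horocycle is a Satake coefficient.** -/
theorem horoSum_eq (p : ℂ[X]) (y : Vert S v) (j : ℤ) :
    horoSum hv p y j =
      ((Real.sqrt (pnorm v) : ℝ) : ℂ) ^ (j - hidx y) * (sat (pnorm v) p).coeff (hidx y - j) := by
  set s : ℂ := ((Real.sqrt (pnorm v) : ℝ) : ℂ) with hs
  have hs0 : s ≠ 0 := by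
    rw [hs, Ne, Complex.ofReal_eq_zero, Real.sqrt_eq_zero (Nat.cast_nonneg _)]
    linarith [pnorm_gt_one v]
  induction p using Polynomial.induction_on generalizing y with
  | C c =>
    -- a constant: only `y` itself contributes, if it is on the horocycle
    have hk : ∀ z, sphKer hv (Polynomial.C c) y z = if y = z then c else 0 := fun z => by
      rw [← mul_one (Polynomial.C c), sphKer_C_mul, sphKer_one hv, LKer.one_apply]
      split_ifs <;> simp
    have hsat : sat (pnorm v) (Polynomial.C c) = LaurentPolynomial.C c := by simp [sat]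
    rw [horoSum, finsum_mem_def, finsum_eq_single _ y fun z hz => by
      simp [Set.indicator, hk, Ne.symm hz], hsat]
    by_cases hy : hidx y = j
    · subst hy
      rw [Set.indicator_of_mem (show y ∈ {c : Vert S v | hidx c = hidx y} from rfl), hk, if_pos rfl,
        sub_self, zpow_zero, one_mul]
      exact (Finsupp.single_eq_same).symm
    · rw [Set.indicator_of_notMem (show y ∉ {c : Vert S v | hidx c = j} from hy)]
      symm
      refine mul_eq_zero_of_right _ ?_
      exact Finsupp.single_eq_of_ne (by omega)
  | add f g hf hg =>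
    -- both sides are additive
    have e : horoSum hv (f + g) y j = horoSum hv f y j + horoSum hv g y j := by
      simp only [horoSum, sphKer_add]
      exact finsum_mem_add_distrib' (((sphKer hv f).finite_row y).subset Set.inter_subset_right)
        (((sphKer hv g).finite_row y).subset Set.inter_subset_right)
    rw [e, hf, hg, show sat (pnorm v) (f + g) = sat (pnorm v) f + sat (pnorm v) g by simp [sat],
      AddMonoidAlgebra.coeff_add, Finsupp.add_apply, mul_add]
  | monomial n c ih =>
    have e : Polynomial.C c * X ^ (n + 1) = X * (Polynomial.C c * X ^ n) := by ring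
    -- times `X`: one neighbour goes down and `q` go up, as in `sat_X_mul`
    obtain ⟨κ, _, nb, hcard, hinj, hrow, hdn, hup⟩ := row_X_eq hv y
    rw [e, horoSum_X_mul, hrow, Finset.sum_image hinj.injOn, Fintype.sum_option, sat_X_mul]
    simp only [ih, hdn, hup, Finset.sum_const, Finset.card_univ, hcard, nsmul_eq_mul]
    set d := hidx y - j with hd
    rw [show hidx y - 1 - j = d - 1 by omega, show hidx y + 1 - j = d + 1 by omega,
      show j - (hidx y - 1) = -d + 1 by omega, show j - (hidx y + 1) = -d + -1 by omega,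
      show j - hidx y = -d by omega, zpow_add₀ hs0, zpow_add₀ hs0, zpow_one, zpow_neg_one,
      ← sqrt_q_sq (pnorm v), ← hs]
    field_simp

end Fermat.LTG.H
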