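import Mathlib

/-!
# The product over sign patterns

For a finite set `P` the expansion of `∏_ε (1 - z^ε)` over the sign patterns `ε` on `P` is a sum
over sets `E` of patterns; it is symmetrical in every variable, and it is killed by periodisation
along the diagonal vector.
-/

set_option autoImplicit false
open scoped Classical

namespace Fermat.LTG.H

variable {P : Type*} [Fintype P]

/-- The sign of a boolean. -/
def sg (b : Bool) : ℤ := if b then 1 else -1

/-- The exponent at `p` of a set of sign patterns. -/
noncomputable def expo (E : Finset (P → Bool)) (p : P) : ℤ := ∑ ε ∈ E, sg (ε p)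

/-- The coefficient of a set of sign patterns. -/
noncomputable def coef (E : Finset (P → Bool)) : ℂ := (-1) ^ E.card

/-- The expansion evaluated on functions of the exponents. -/
noncomputable def expand (φ : P → ℤ → ℂ) : ℂ :=
  ∑ E : Finset (P → Bool), coef E * ∏ p, φ p (expo E p)

/-- The even part `(ψ m + ψ (-m)) / 2` of a sequence. -/
noncomputable def symm2 (ψ : ℤ → ℂ) (m : ℤ) : ℂ := (ψ m + ψ (-m)) / 2

/-- The opposite boolean has the opposite sign. -/
lemma sg_not (b : Bool) : sg (!b) = -sg b := by cases b <;> simp [sg]

/-- Flip the signs at the places in `s`. -/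
noncomputable def flipAt (s : Finset P) : (P → Bool) ≃ (P → Bool) :=
  Function.Involutive.toPerm (fun ε p => if p ∈ s then !(ε p) else ε p) fun ε => by
    funext p; simp only; split_ifs <;> simp

omit [Fintype P] in
/-- Flipping at `s` negates the exponents on `s`. -/
lemma expo_flip (s : Finset P) (E : Finset (P → Bool)) (p : P) :
    expo (E.map (flipAt s).toEmbedding) p = if p ∈ s then -expo E p else expo E p := by
  rw [expo, Finset.sum_map]
  split_ifs with h
  · rw [expo, ← Finset.sum_neg_distrib]
    refine Finset.sum_congr rfl fun ε _ => ?_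
    change sg (if p ∈ s then !(ε p) else ε p) = _
    rw [if_pos h, sg_not]
  · refine Finset.sum_congr rfl fun ε _ => ?_
    change sg (if p ∈ s then !(ε p) else ε p) = _
    rw [if_neg h]

/-- The expansion is unchanged by negating some of the variables. -/
lemma expand_flip (s : Finset P) (φ : P → ℤ → ℂ) :
    expand (fun p m => φ p (if p ∈ s then -m else m)) = expand φ := by
  unfold expand
  refine Fintype.sum_equiv (Equiv.finsetCongr (flipAt s)) _ _ fun E => ?_
  simp only [Equiv.finsetCongr_apply, coef, Finset.card_map, expo_flip]

/-- Only the symmetrical parts are seen. -/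
theorem expand_symm2 (φ : P → ℤ → ℂ) : expand (fun p => symm2 (φ p)) = expand φ := by
  have h : ∀ E : Finset (P → Bool), ∏ p, symm2 (φ p) (expo E p) =
      (2 ^ Fintype.card P : ℂ)⁻¹ *
        ∑ s : Finset P, ∏ p, φ p (if p ∈ s then -expo E p else expo E p) := by
    intro E
    have h1 := Fintype.prod_add (fun p => φ p (-expo E p)) (fun p => φ p (expo E p))
    have h2 : ∀ p, symm2 (φ p) (expo E p) =
        (2 : ℂ)⁻¹ * (φ p (-expo E p) + φ p (expo E p)) := fun p => by rw [symm2]; ring
    simp only [h2, Finset.prod_mul_distrib, Finset.prod_const, Finset.card_univ, inv_pow]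
    rw [h1]
    refine congrArg _ (Finset.sum_congr rfl fun s _ => ?_)
    rw [← Finset.prod_mul_prod_compl s (fun p => φ p (if p ∈ s then -expo E p else expo E p))]
    refine congrArg₂ _ (Finset.prod_congr rfl fun p hp => by simp [hp])
      (Finset.prod_congr rfl fun p hp => by simp [Finset.mem_compl.1 hp])
  calc expand (fun p => symm2 (φ p))
      = ∑ E : Finset (P → Bool), coef E * ((2 ^ Fintype.card P : ℂ)⁻¹ *
          ∑ s : Finset P, ∏ p, φ p (if p ∈ s then -expo E p else expo E p)) := by
        unfold expand; simp only [h]
    _ = (2 ^ Fintype.card P : ℂ)⁻¹ * ∑ s : Finset P,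
          expand (fun p m => φ p (if p ∈ s then -m else m)) := by
        unfold expand
        simp only [Finset.mul_sum]
        rw [Finset.sum_comm]
        exact Finset.sum_congr rfl fun s _ => Finset.sum_congr rfl fun E _ => by ring
    _ = expand φ := by
        simp only [expand_flip, Finset.sum_const, Finset.card_univ,
          Fintype.card_finset, nsmul_eq_mul]
        rw [← mul_assoc]
        simp

/-- The all positive pattern. -/
def top (P : Type*) : P → Bool := fun _ => true

/-- Adding the all positive pattern adds one to every exponent. -/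
lemma expo_insert {E : Finset (P → Bool)} (hE : top P ∉ E) (p : P) :
    expo (insert (top P) E) p = 1 + expo E p := by
  simp [expo, Finset.sum_insert hE, top, sg]

/-- The expansion is a difference of a function and its diagonal shift. -/
theorem expand_eq_sub (φ : P → ℤ → ℂ) :
    expand φ = ∑ E ∈ (Finset.univ : Finset (Finset (P → Bool))).filter (fun E => top P ∉ E),
      coef E * (∏ p, φ p (expo E p) - ∏ p, φ p (1 + expo E p)) := by
  unfold expand
  rw [← Finset.sum_filter_add_sum_filter_not Finset.univ (fun E : Finset (P → Bool) => top P ∉ E)]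
  simp only [mul_sub, Finset.sum_sub_distrib]
  rw [sub_eq_add_neg, ← Finset.sum_neg_distrib]
  congr 1
  refine Finset.sum_nbij' (fun E => E.erase (top P)) (fun E => insert (top P) E) ?_ ?_ ?_ ?_ ?_
  · intro E hE; simp
  · intro E hE; simp
  · intro E hE
    simp only [Finset.mem_filter, not_not] at hE
    exact Finset.insert_erase hE.2
  · intro E hE
    simp only [Finset.mem_filter] at hE
    exact Finset.erase_insert hE.2
  · intro E hE
    simp only [Finset.mem_filter, not_not] at hE
    have he : top P ∉ E.erase (top P) := Finset.notMem_erase _ _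
    have hc : coef E = -coef (E.erase (top P)) := by
      conv_lhs => rw [← Finset.insert_erase hE.2]
      rw [coef, coef, Finset.card_insert_of_notMem he, pow_succ]
      ring
    have hx : ∀ p, expo E p = 1 + expo (E.erase (top P)) p := fun p => by
      conv_lhs => rw [← Finset.insert_erase hE.2]
      exact expo_insert he p
    simp only [hc, hx, neg_mul]

/-- Periodisation kills the expansion. -/
theorem finsum_expand_eq_zero {A : Type*} (τ : A ≃ A) (c : A → ℂ) (φ : A → P → ℤ → ℂ)
    (hc : ∀ a, c (τ a) = c a) (hφ : ∀ a p m, φ (τ a) p (m + 1) = φ a p m)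
    (hfin : ∀ E : Finset (P → Bool),
      (Function.support fun a => c a * ∏ p, φ a p (expo E p)).Finite) :
    ∑ᶠ a, c a * expand (φ a) = 0 := by
  have hprod : ∀ (a : A) (E : Finset (P → Bool)),
      c (τ a) * ∏ p, φ (τ a) p (1 + expo E p) = c a * ∏ p, φ a p (expo E p) := fun a E => by
    rw [hc]
    exact congrArg _ (Finset.prod_congr rfl fun p _ => by rw [add_comm, hφ])
  have e : ∀ a, c a * expand (φ a) =
      ∑ E ∈ (Finset.univ : Finset (Finset (P → Bool))).filter (fun E => top P ∉ E),
        coef E * (c a * ∏ p, φ a p (expo E p) - c a * ∏ p, φ a p (1 + expo E p)) := fun a => by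
    rw [expand_eq_sub, Finset.mul_sum]
    exact Finset.sum_congr rfl fun E _ => by ring
  simp only [e]
  have hfin' : ∀ E : Finset (P → Bool),
      (Function.support fun a => c a * ∏ p, φ a p (1 + expo E p)).Finite := fun E => by
    refine ((hfin E).image τ).subset fun a ha => ⟨τ.symm a, ?_, τ.apply_symm_apply a⟩
    rw [Function.mem_support, ← hprod (τ.symm a) E, τ.apply_symm_apply]
    exact ha
  rw [finsum_sum_comm _ _ fun E _ => ((hfin E).union (hfin' E)).subset fun a ha => by
    by_contra hn
    simp only [Set.mem_union, Function.mem_support, not_or, not_not] at hn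
    simp [hn.1, hn.2] at ha]
  refine Finset.sum_eq_zero fun E _ => ?_
  rw [← mul_finsum, finsum_sub_distrib (hfin E) (hfin' E), ← finsum_comp_equiv τ
    (f := fun a => c a * ∏ p, φ a p (1 + expo E p))]
  simp [hprod]

/-- The value on characters. -/
theorem expand_zpow (z : P → ℂ) (hz : ∀ p, z p ≠ 0) :
    expand (fun p m => z p ^ m) = ∏ ε : P → Bool, (1 - ∏ p, z p ^ sg (ε p)) := by
  rw [Finset.prod_sub]
  unfold expand
  rw [Finset.powerset_univ]
  refine Finset.sum_congr rfl fun E hE => ?_
  clear hE
  simp only [coef, Finset.prod_const_one, mul_one]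
  congr 1
  rw [Finset.prod_comm]
  refine Finset.prod_congr rfl fun p _ => ?_
  rw [expo]
  induction E using Finset.induction_on with
  | empty => simp
  | insert ε E hε ih => rw [Finset.sum_insert hε, Finset.prod_insert hε, zpow_add₀ (hz p), ih]

/-- The value is nonzero when no signed product of the `z` is one. -/
theorem expand_zpow_ne_zero (z : P → ℂ) (hz : ∀ p, z p ≠ 0)
    (h : ∀ ε : P → Bool, ∏ p, z p ^ sg (ε p) ≠ 1) :
    expand (fun p => symm2 (fun m => z p ^ m)) ≠ 0 := by
  rw [expand_symm2, expand_zpow z hz]
  exact Finset.prod_ne_zero_iff.2 fun ε _ => sub_ne_zero.2 (h ε).symm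

end Fermat.LTG.H
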