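import Fermat.Agent.LTG.H.SymPoly
import Fermat.Agent.LTG.H.Hhat
import Fermat.Agent.LTG.H.Signs
import Fermat.Agent.LTG.Const

/-!
# The operator whose constant term vanishes

For `α ≡ 1` at the level the combination `h` has the local Satake transforms of
`∏_ε (1 - (shift by α)^ε)` times a fixed bump at the infinite places; periodisation by `α` kills its
constant term.
-/

set_option autoImplicit false
open NumberField MeasureTheory Set Real
open scoped Classical ContDiff

namespace Fermat.LTG.H

open Fermat.LT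

variable {F : Type*} [Field F] [NumberField F]

/-- The data of the operator at the level `S`. -/
structure Data (F : Type*) [Field F] [NumberField F] (S : Lev F) where
  /-- The element of the periodisation. -/
  α : Fˣ
  /-- The finite places at which the operator may act. -/
  T : Finset (Place F)
  /-- The places of `T` avoid the level. -/
  notMem : ∀ v ∈ T, v ∉ S
  /-- Off `T` the matrix `diag (α, 1)` lies in the congruence group of the level. -/
  deep : ∀ v ∉ T, upMat α 0 ∈ UN (v.valuation F) (S.depth v)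
  /-- The radial bump function of the operator. -/
  G : ℝ → ℝ
  /-- The radius of its support. -/
  δ : ℝ
  /-- The radius is nonnegative. -/
  δ_nonneg : 0 ≤ δ
  /-- Each archimedean logarithm of `α` is zero or exceeds the radius. -/
  small : ∀ w : InfinitePlace F, Real.log (w (α : F)) = 0 ∨ δ < |Real.log (w (α : F))|
  /-- The bump is smooth. -/
  smooth : ContDiff ℝ ∞ G
  /-- The bump has compact support. -/
  compact : HasCompactSupport G
  /-- The bump vanishes beyond `cosh δ`. -/
  supp : ∀ x, cosh δ < x → G x = 0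

namespace Data

variable {S : Lev F} (H : Data F S)

/-- The variables of the sign patterns. -/
abbrev Idx : Type _ := H.T ⊕ InfinitePlace F

/-- The shift at an infinite place of a set of patterns. -/
noncomputable def shiftAt (E : Finset (H.Idx → Bool)) (w : InfinitePlace F) : ℝ :=
  (expo E (Sum.inr w) : ℝ) * Real.log (w (H.α : F))

/-- Every archimedean shift is zero or beyond the support of the bump. -/
lemma shiftAt_small (E : Finset (H.Idx → Bool)) (w : InfinitePlace F) :
    H.shiftAt E w = 0 ∨ H.δ < |H.shiftAt E w| := by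
  rcases eq_or_ne (expo E (Sum.inr w) : ℤ) 0 with h | h
  · left; simp [shiftAt, h]
  rcases H.small w with h' | h'
  · left; simp [shiftAt, h']
  · right
    have h1 : (1 : ℝ) ≤ |(expo E (Sum.inr w) : ℝ)| := by exact_mod_cast Int.one_le_abs h
    rw [shiftAt, abs_mul]
    exact lt_of_lt_of_le h' (le_mul_of_one_le_left (abs_nonneg _) h1)

/-- The radial function at an infinite place. -/
noncomputable def radF (E : Finset (H.Idx → Bool)) (w : InfinitePlace F) : ℝ → ℝ :=
  radG (arShift H.G (H.shiftAt E w))

/-- The radial functions of the operator are smooth. -/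
lemma contDiff_radF (E : Finset (H.Idx → Bool)) (w : InfinitePlace F) :
    ContDiff ℝ ∞ (H.radF E w) :=
  contDiff_radG (contDiff_arShift H.smooth H.supp H.δ_nonneg (H.shiftAt_small E w))

/-- The radial functions of the operator have compact support. -/
lemma hasCompactSupport_radF (E : Finset (H.Idx → Bool)) (w : InfinitePlace F) :
    HasCompactSupport (H.radF E w) :=
  hasCompactSupport_radG (hasCompactSupport_arShift H.compact H.supp)

/-- The exponent at a finite place. -/
noncomputable def expAt (E : Finset (H.Idx → Bool)) (v : H.T) : ℤ :=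
  ord (v.1.valuation F) (H.α : F) * expo E (Sum.inl v)

/-- The product kernel of one set of sign choices. -/
noncomputable def term (E : Finset (H.Idx → Bool)) : PKer F S where
  loc v := if h : v ∈ H.T then sphKer (H.notMem v h) (halfSym (pnorm v) (H.expAt E ⟨v, h⟩))
    else LKer.one S v
  ae_one := by
    filter_upwards [H.T.finite_toSet.compl_mem_cofinite] with v hv
    rw [dif_neg (by simpa using hv)]
  arch w := AKer.ofRadial (H.radF E w) (H.contDiff_radF E w).continuous
    (H.hasCompactSupport_radF E w)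

/-- The factor of a term at a place of the support. -/
lemma term_loc_mem (E : Finset (H.Idx → Bool)) {v : Place F} (h : v ∈ H.T) :
    (H.term E).loc v = sphKer (H.notMem v h) (halfSym (pnorm v) (H.expAt E ⟨v, h⟩)) := dif_pos h

/-- A term is trivial away from the support. -/
lemma term_loc_not (E : Finset (H.Idx → Bool)) {v : Place F} (h : v ∉ H.T) :
    (H.term E).loc v = LKer.one S v := dif_neg h

/-- The operator: the combination of the kernels `term` with coefficients `coef`. -/
noncomputable def ker : SKer F S := SKer.ofFintype (fun E => coef E) H.term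

/-- The radial functions of the operator. -/
noncomputable def kerRad : Fin H.ker.n → InfinitePlace F → ℝ → ℝ :=
  fun i => H.radF ((Fintype.equivFin _).symm i)

/-- The square root of the norm at a place. -/
noncomputable def sq (v : Place F) : ℂ := ((Real.sqrt (pnorm v) : ℝ) : ℂ)

/-- The factor free of the patterns. -/
noncomputable def free (ν u : FinPt F S) (a : Fˣ) : ℂ :=
  (((∏ w : InfinitePlace F, w (a : F))⁻¹ : ℝ) : ℂ) *
    (∏ v : H.T, sq v.1 ^ (ord (v.1.valuation F) (a : F) + hidx (u.1 v.1) - hidx (ν.1 v.1))) *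
    ∏ᶠ v : Place F, if v ∈ H.T then (1 : ℂ) else
      orbSum (LKer.one S v) (ν.1 v) ((upMat a 0 • u).1 v)

/-- The factor of one place. -/
noncomputable def psi (ν u : FinPt F S) (l : InfinitePlace F → ℝ) (a : Fˣ) : H.Idx → ℤ → ℂ
  | Sum.inl v, m =>
    if hidx (ν.1 v.1) - hidx (u.1 v.1) - ord (v.1.valuation F) (a : F) =
        ord (v.1.valuation F) (H.α : F) * m then 1 else 0
  | Sum.inr w, m =>
    ((H.G (cosh (l w - Real.log (w (a : F)) - (m : ℝ) * Real.log (w (H.α : F)))) : ℝ) : ℂ)

/-- The horocycle sum of the identity kernel between equal indices is one. -/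
lemma orbSum_base {v : Place F} (hv : v ∉ S) (ν u : Vert S v) (hω : hidx ν = hidx u) :
    orbSum (LKer.one S v) ν u = 1 := by
  rw [orbSum, range_unip hv, finsum_mem_def, finsum_eq_single _ ν fun z hz => by
    simp [Set.indicator, LKer.one_apply, Ne.symm hz]]
  rw [Set.indicator_of_mem (show ν ∈ {c : Vert S v | hidx c = hidx u} from hω), LKer.one_apply,
    if_pos rfl]

/-- At almost all places the free factor is one. -/
lemma eventually_one (ν u : FinPt F S) (a : Fˣ) :
    ∀ᶠ v in Filter.cofinite, v ∉ H.T ∧ v ∉ S ∧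
      orbSum (LKer.one S v) (ν.1 v) ((upMat a 0 • u).1 v) = 1 := by
  filter_upwards [ν.2, u.2, S.eventually_notMem, H.T.finite_toSet.compl_mem_cofinite,
    (finite_vabs_ne_one a.ne_zero).compl_mem_cofinite] with v hω hu hS hT ha
  simp only [Set.mem_compl_iff, Set.mem_ofPred_eq, not_not] at ha
  refine ⟨by simpa using hT, hS, orbSum_base hS _ _ ?_⟩
  rw [FinPt.smul_apply, hu, hω, hidx_smul, hidx_base, add_zero, eq_comm]
  exact (ord_eq_zero_iff _ a.ne_zero).2 ((vabs_eq_one_iff v a.ne_zero).1 ha)

/-- The free factor is a finite product. -/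
lemma mulSupport_free_finite (ν u : FinPt F S) (a : Fˣ) :
    (Function.mulSupport fun v : Place F => if v ∈ H.T then (1 : ℂ) else
      orbSum (LKer.one S v) (ν.1 v) ((upMat a 0 • u).1 v)).Finite := by
  refine (Filter.eventually_cofinite.1 (H.eventually_one ν u a)).subset fun v hv h => hv ?_
  simp only
  rw [if_neg h.1, h.2.2]

/-- The orbit sums of a term. -/
lemma finprod_orbSum (E : Finset (H.Idx → Bool)) (ν u : FinPt F S) (a : Fˣ) :
    ∏ᶠ v, orbSum ((H.term E).loc v) (ν.1 v) ((upMat a 0 • u).1 v) =
      (∏ v : H.T, sq v.1 ^ (ord (v.1.valuation F) (a : F) + hidx (u.1 v.1) - hidx (ν.1 v.1)) *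
        (((if hidx (ν.1 v.1) - hidx (u.1 v.1) - ord (v.1.valuation F) (a : F) = H.expAt E v
            then (1 : ℂ) else 0) +
          if hidx (ν.1 v.1) - hidx (u.1 v.1) - ord (v.1.valuation F) (a : F) = -H.expAt E v
            then 1 else 0) / 2)) *
      ∏ᶠ v : Place F, if v ∈ H.T then (1 : ℂ) else
        orbSum (LKer.one S v) (ν.1 v) ((upMat a 0 • u).1 v) := by
  set f : Place F → ℂ := fun v => orbSum ((H.term E).loc v) (ν.1 v) ((upMat a 0 • u).1 v)
  set g : Place F → ℂ := fun v => if v ∈ H.T then f v else 1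
  set g' : Place F → ℂ := fun v => if v ∈ H.T then (1 : ℂ) else
    orbSum (LKer.one S v) (ν.1 v) ((upMat a 0 • u).1 v)
  have hfg : ∀ v, f v = g v * g' v := fun v => by
    by_cases h : v ∈ H.T
    · simp [g, g', h]
    · simp [g, g', f, h, H.term_loc_not E h]
  have hg : Function.mulSupport g ⊆ (H.T : Set (Place F)) := fun v hv => by
    by_contra h
    exact hv (if_neg h)
  rw [show (∏ᶠ v, f v) = ∏ᶠ v, g v * g' v from finprod_congr hfg,
    finprod_mul_distrib (H.T.finite_toSet.subset hg) (H.mulSupport_free_finite ν u a),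
    finprod_eq_prod_of_mulSupport_subset _ hg, ← Finset.prod_coe_sort]
  refine congrArg (· * _) (Finset.prod_congr rfl fun v _ => ?_)
  simp only [g, if_pos v.2, f, H.term_loc_mem E v.2]
  exact orbit_halfSym (H.notMem v.1 v.2) _ a (ν.1 v.1) (u.1 v.1)

/-- The summand of the constant term is the expansion. -/
lemma summand_eq (ν u : FinPt F S) (l : InfinitePlace F → ℝ) (a : Fˣ) :
    (((∏ w : InfinitePlace F, w (a : F))⁻¹ : ℝ) : ℂ) *
      (∑ i, H.ker.coef i *
        (∏ᶠ v, orbSum ((H.ker.ker i).loc v) (ν.1 v) ((upMat a 0 • u).1 v)) *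
        ∏ w, gT (H.kerRad i w) (l w - Real.log (w (a : F)))) =
      H.free ν u a * expand (H.psi ν u l a) := by
  have he := (Fintype.equivFin (Finset (H.Idx → Bool))).symm.sum_comp (fun E => coef E *
    (∏ᶠ v, orbSum ((H.term E).loc v) (ν.1 v) ((upMat a 0 • u).1 v)) *
    ∏ w, gT (H.radF E w) (l w - Real.log (w (a : F))))
  rw [show (∑ i, H.ker.coef i *
        (∏ᶠ v, orbSum ((H.ker.ker i).loc v) (ν.1 v) ((upMat a 0 • u).1 v)) *
        ∏ w, gT (H.kerRad i w) (l w - Real.log (w (a : F)))) = _ from he,
    ← expand_symm2 (H.psi ν u l a), expand, Finset.mul_sum, Finset.mul_sum]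
  refine Finset.sum_congr (by ext; simp) fun E _ => ?_
  rw [H.finprod_orbSum, Fintype.prod_sum_type]
  have h1 : ∏ v : H.T, sq v.1 ^ (ord (v.1.valuation F) (a : F) + hidx (u.1 v.1) - hidx (ν.1 v.1)) *
        (((if hidx (ν.1 v.1) - hidx (u.1 v.1) - ord (v.1.valuation F) (a : F) = H.expAt E v
            then (1 : ℂ) else 0) +
          if hidx (ν.1 v.1) - hidx (u.1 v.1) - ord (v.1.valuation F) (a : F) = -H.expAt E v
            then 1 else 0) / 2) =
      (∏ v : H.T, sq v.1 ^ (ord (v.1.valuation F) (a : F) + hidx (u.1 v.1) - hidx (ν.1 v.1))) *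
        ∏ v : H.T, symm2 (H.psi ν u l a (Sum.inl v)) (expo E (Sum.inl v)) := by
    rw [← Finset.prod_mul_distrib]
    refine Finset.prod_congr rfl fun v _ => ?_
    simp only [symm2, psi, expAt, mul_neg]
    congr
  have h2 : ∏ w, gT (H.radF E w) (l w - Real.log (w (a : F))) =
      ∏ w, symm2 (H.psi ν u l a (Sum.inr w)) (expo E (Sum.inr w)) := by
    refine Finset.prod_congr rfl fun w _ => ?_
    rw [radF, gT_arShift H.smooth H.compact H.supp H.δ_nonneg (H.shiftAt_small E w)]
    simp only [symm2, psi, shiftAt]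
    push_cast
    ring_nf
  rw [h1, h2, free]
  ring

/-- Away from the exceptional set periodisation by `α` does not change the orbit. -/
lemma smul_deep {v : Place F} (hv : v ∉ H.T) (u : Vert S v) (a : Fˣ) :
    Set.range (fun x : F => upMat (1 : Fˣ) x • (upMat (a * H.α⁻¹) 0 • u)) =
      Set.range (fun x : F => upMat (1 : Fˣ) x • (upMat a 0 • u)) := by
  -- write `u` as an upper triangular element times one of `U₀`
  obtain ⟨b, x₀, hk⟩ := exists_upMat_mod_U0 (v.valuation F) u.out
  set k := (upMat b x₀)⁻¹ * u.out with hk'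
  have hu : u = (upMat b x₀ * k : GL (Fin 2) F) := by
    rw [hk', mul_inv_cancel_left, QuotientGroup.out_eq']
  set t : GL (Fin 2) F := upMat H.α⁻¹ 0 with ht
  have htd : t ∈ UN (v.valuation F) (S.depth v) := by
    have h := (UN (v.valuation F) (S.depth v)).inv_mem (H.deep v hv)
    rwa [upMat_inv, mul_zero] at h
  have hc : k⁻¹ * t * k ∈ lev S v := conj_UN_mem (v.valuation F) hk htd
  -- removing `α⁻¹`, deep in the level at `v`, costs a translation
  have e : upMat (a * H.α⁻¹) 0 • u =
      upMat (1 : Fˣ) ((a : F) * ((H.α⁻¹ : Fˣ) : F) * x₀ - (a : F) * x₀) • (upMat a 0 • u) := by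
    have e1 : upMat (a * H.α⁻¹) 0 * upMat b x₀ =
        upMat (1 : Fˣ) ((a : F) * ((H.α⁻¹ : Fˣ) : F) * x₀ - (a : F) * x₀) *
          (upMat a 0 * upMat b x₀) * t := by
      rw [ht, upMat_mul, upMat_mul, upMat_mul, upMat_mul]
      congr 1
      · rw [one_mul, mul_assoc, mul_comm H.α⁻¹ b, ← mul_assoc, mul_assoc a b]
      · simp only [Units.val_one, Units.val_mul, one_mul, mul_zero, add_zero, zero_add]
        ring
    rw [hu]
    simp only [MulAction.Quotient.smul_coe, smul_eq_mul, ← mul_assoc, e1]
    simp only [mul_assoc]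
    rw [QuotientGroup.eq]
    convert (lev S v).inv_mem hc using 1
    simp only [mul_inv_rev, inv_inv, mul_assoc, inv_mul_cancel_left]
  rw [e]
  set d := (a : F) * ((H.α⁻¹ : Fˣ) : F) * x₀ - (a : F) * x₀
  set y := upMat a 0 • u
  -- translations permute the orbit
  ext c
  constructor
  · rintro ⟨x, rfl⟩
    exact ⟨x + d, by change upMat 1 (x + d) • y = _; rw [upMat_add, mul_smul]⟩
  · rintro ⟨x, rfl⟩
    refine ⟨x - d, ?_⟩
    change upMat 1 (x - d) • upMat 1 d • y = _
    rw [← mul_smul, ← upMat_add, sub_add_cancel]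

/-- `α` is a unit outside the support. -/
lemma ord_alpha {v : Place F} (hv : v ∉ H.T) : ord (v.valuation F) (H.α : F) = 0 := by
  have h : hidx ((upMat H.α 0 : GL (Fin 2) F) : Vert (Lev.base (F := F)) v) = hidx
      ((1 : GL (Fin 2) F) : Vert (Lev.base (F := F)) v) := by
    refine congrArg hidx (QuotientGroup.eq.2 ?_)
    rw [mul_one]
    exact (lev (Lev.base) v).inv_mem (UN_anti _ (Nat.zero_le _) (H.deep v hv))
  rwa [hidx_upMat, hidx_base] at h

/-- The product formula for `α` in square roots of norms. -/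
lemma sqrt_pf [IsTotallyComplex F] : (∏ w : InfinitePlace F, w (H.α : F)) =
    ∏ v : H.T, Real.sqrt (pnorm v.1) ^ (ord (v.1.valuation F) (H.α : F)) := by
  have hfin : ∏ᶠ v : Place F, vabs v (H.α : F) =
      ∏ v : H.T, (pnorm v.1 : ℝ) ^ (-ord (v.1.valuation F) (H.α : F)) := by
    rw [finprod_eq_prod_of_mulSupport_subset (s := H.T) _ fun v hv => by
      by_contra h
      rw [Function.mem_mulSupport, vabs_eq v H.α.ne_zero, H.ord_alpha (by simpa using h)] at hv
      simp at hv, ← Finset.prod_coe_sort]
    exact Finset.prod_congr rfl fun v _ => vabs_eq v.1 H.α.ne_zero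
  have h := product_formula (F := F) H.α.ne_zero
  simp only [IsTotallyComplex.mult_eq, Finset.prod_pow, hfin] at h
  refine (sq_eq_sq₀ (Finset.prod_nonneg fun w _ => apply_nonneg _ _)
    (Finset.prod_nonneg fun v _ => zpow_nonneg (Real.sqrt_nonneg _) _)).1 ?_
  rw [eq_comm, ← Finset.prod_pow]
  simp only [← zpow_natCast, zpow_comm _ _ ((2 : ℕ) : ℤ)]
  simp only [zpow_natCast, Real.sq_sqrt (Nat.cast_nonneg _)]
  have hne : ∏ v : H.T, (pnorm v.1 : ℝ) ^ ord (v.1.valuation F) (H.α : F) ≠ 0 :=
    Finset.prod_ne_zero_iff.2 fun v _ =>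
      zpow_ne_zero _ (zero_lt_one.trans (pnorm_gt_one v.1)).ne'
  simp only [zpow_neg, Finset.prod_inv_distrib] at h
  field_simp at h
  exact h.symm

/-- The constant term of the operator vanishes. -/
theorem hasZeroCTO [IsTotallyComplex F] : H.ker.HasZeroCTO H.kerRad := by
  intro ν u l
  rw [finsum_congr (H.summand_eq ν u l)]
  -- a shift by `α` fixes the free factor and moves every exponent; the support is finite
  refine finsum_expand_eq_zero (Equiv.mulRight H.α⁻¹) _ _ (fun a => ?_)
    (fun a p m => ?_) fun E => ?_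
  · simp only [Equiv.coe_mulRight, free]
    have h1 : (∏ᶠ v : Place F, if v ∈ H.T then (1 : ℂ) else
        orbSum (LKer.one S v) (ν.1 v) ((upMat (a * H.α⁻¹) 0 • u).1 v)) =
      ∏ᶠ v : Place F, if v ∈ H.T then (1 : ℂ) else
        orbSum (LKer.one S v) (ν.1 v) ((upMat a 0 • u).1 v) := by
      refine finprod_congr fun v => ?_
      split_ifs with hv
      · rfl
      · rw [orbSum, orbSum, FinPt.smul_apply, FinPt.smul_apply, H.smul_deep hv]
    rw [h1]
    congr 1
    have h2 : ∀ v : H.T, sq v.1 ^ (ord (v.1.valuation F) ((a * H.α⁻¹ : Fˣ) : F) + hidx (u.1 v.1) -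
          hidx (ν.1 v.1)) =
        sq v.1 ^ (ord (v.1.valuation F) (a : F) + hidx (u.1 v.1) - hidx (ν.1 v.1)) *
          (sq v.1 ^ ord (v.1.valuation F) (H.α : F))⁻¹ := fun v => by
      have hs : sq v.1 ≠ 0 := Complex.ofReal_ne_zero.2
        (Real.sqrt_ne_zero'.2 (zero_lt_one.trans (pnorm_gt_one v.1)))
      rw [← zpow_neg, ← zpow_add₀ hs, Units.val_mul, Units.val_inv_eq_inv_val,
        ord_mul _ a.ne_zero (inv_ne_zero H.α.ne_zero), ord_inv]
      ring_nf
    have h3 : ∏ v : H.T, (sq v.1 ^ ord (v.1.valuation F) (H.α : F))⁻¹ =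
        (((∏ w : InfinitePlace F, w (H.α : F))⁻¹ : ℝ) : ℂ) := by
      rw [H.sqrt_pf, ← Finset.prod_inv_distrib]
      simp [sq]
    rw [Finset.prod_congr rfl fun v _ => h2 v, Finset.prod_mul_distrib, h3]
    simp only [Units.val_mul, Units.val_inv_eq_inv_val, map_mul, map_inv₀, Finset.prod_mul_distrib,
      Finset.prod_inv_distrib]
    have hne : (∏ w : InfinitePlace F, w (H.α : F)) ≠ 0 :=
      Finset.prod_ne_zero_iff.2 fun w _ => by simp
    push_cast
    have hne' : ((∏ w : InfinitePlace F, w (H.α : F) : ℝ) : ℂ) ≠ 0 := Complex.ofReal_ne_zero.2 hne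
    push_cast at hne'
    field_simp
  · rcases p with v | w
    · simp only [psi, Equiv.coe_mulRight, Units.val_mul, Units.val_inv_eq_inv_val,
        ord_mul _ a.ne_zero (inv_ne_zero H.α.ne_zero), ord_inv, mul_add, mul_one]
      exact if_congr (by constructor <;> intro h <;> linarith) rfl rfl
    · simp only [psi, Equiv.coe_mulRight, Units.val_mul, Units.val_inv_eq_inv_val,
        map_mul, map_inv₀]
      rw [Real.log_mul (by simp) (by simp), Real.log_inv]
      push_cast
      ring_nf
  · set b : Place F → ℕ := fun v => (hidx (ν.1 v) - hidx (u.1 v)).natAbs +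
      if hv : v ∈ H.T then (ord (v.valuation F) (H.α : F) * expo E (Sum.inl ⟨v, hv⟩)).natAbs else 0
      with hb
    have hbfin : {v | b v ≠ 0}.Finite := by
      refine Filter.eventually_cofinite.1 ?_
      filter_upwards [ν.2, u.2, H.T.finite_toSet.compl_mem_cofinite] with v h1 h2 h3
      simp only [hb, dif_neg (show v ∉ H.T by simpa using h3), h1, h2, hidx_base]
      simp
    set C : ℝ := ∑ w : InfinitePlace F,
      Real.exp (|l w - (expo E (Sum.inr w) : ℝ) * Real.log (w (H.α : F))| + H.δ) with hC
    refine ((finite_bounded_elements b hbfin C).preimage Units.val_injective.injOn).subset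
      fun a ha => ?_
    rw [Function.mem_support, mul_ne_zero_iff, free, mul_ne_zero_iff, mul_ne_zero_iff] at ha
    obtain ⟨⟨-, hf⟩, hp0⟩ := ha
    have hp := Finset.prod_ne_zero_iff.1 hp0
    refine ⟨fun v => ?_, fun φ => ?_⟩
    · rw [v_eq_exp _ a.ne_zero, WithZero.exp_le_exp]
      by_cases hv : v ∈ H.T
      · have h := hp (Sum.inl ⟨v, hv⟩) (Finset.mem_univ _)
        simp only [psi, ne_eq, ite_eq_right_iff, Classical.not_imp] at h
        simp only [hb, dif_pos hv]
        omega
      · have h : orbSum (LKer.one S v) (ν.1 v) ((upMat a 0 • u).1 v) ≠ 0 := fun h0 =>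
          hf (finprod_eq_zero _ v (by rw [if_neg hv, h0]) (H.mulSupport_free_finite ν u a))
        obtain ⟨c, ⟨x, rfl⟩, hc⟩ := exists_ne_zero_of_finsum_mem_ne_zero h
        rw [LKer.one_apply, ne_eq, ite_eq_right_iff, Classical.not_imp] at hc
        have h1 := congrArg hidx hc.1
        rw [hidx_smul, FinPt.smul_apply, hidx_smul] at h1
        simp only [Units.val_one,
          show ord (v.valuation F) (1 : F) = 0 by simp [ord], zero_add] at h1
        simp only [hb, dif_neg hv]
        omega
    · set w := InfinitePlace.mk φ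
      have h := hp (Sum.inr w) (Finset.mem_univ _)
      simp only [psi, ne_eq, Complex.ofReal_eq_zero] at h
      have h1 : |l w - Real.log (w (a : F)) - (expo E (Sum.inr w) : ℝ) *
          Real.log (w (H.α : F))| ≤ H.δ := by
        by_contra hlt
        rw [not_le] at hlt
        exact h (H.supp _ (cosh_lt_cosh.2 (by rwa [abs_of_nonneg H.δ_nonneg])))
      have h2 : Real.log (w (a : F)) ≤
          |l w - (expo E (Sum.inr w) : ℝ) * Real.log (w (H.α : F))| + H.δ := by
        have := abs_le.1 h1
        linarith [le_abs_self (l w - (expo E (Sum.inr w) : ℝ) * Real.log (w (H.α : F)))]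
      rw [← InfinitePlace.apply φ (a : F), ← Real.exp_log (InfinitePlace.pos_iff.2 a.ne_zero)]
      exact (Real.exp_le_exp.2 h2).trans (Finset.single_le_sum (f := fun w : InfinitePlace F =>
        Real.exp (|l w - (expo E (Sum.inr w) : ℝ) * Real.log (w (H.α : F))| + H.δ))
        (fun w _ => (Real.exp_pos _).le) (Finset.mem_univ w))

end Data

end Fermat.LTG.H
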