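import Fermat.Agent.LTG.H.Horo

/-!
# The polynomials with Satake transform `tᵏ + t⁻ᵏ`

`symPoly` is this polynomial and `halfSym` half of it with integer exponent; `orbit_halfSym` gives
the orbit sum of its kernel.
-/

set_option autoImplicit false
open IsDedekindDomain NumberField Polynomial LaurentPolynomial
open scoped LaurentPolynomial Polynomial

namespace Fermat.LTG.H

open Fermat.LT

/-- `symPoly q k` has Satake transform `tᵏ + t⁻ᵏ`. -/
noncomputable def symPoly (q : ℕ) : ℕ → ℝ[X]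
  | 0 => 2
  | 1 => Polynomial.C (Real.sqrt q)⁻¹ * X
  | k + 2 => Polynomial.C (Real.sqrt q)⁻¹ * X * symPoly q (k + 1) - symPoly q k

/-- Half of the symmetrised monomial of an integer exponent, with complex coefficients. -/
noncomputable def halfSym (q : ℕ) (m : ℤ) : ℂ[X] :=
  Polynomial.map (algebraMap ℝ ℂ) (Polynomial.C (1 / 2 : ℝ) * symPoly q m.natAbs)

/-- The value of `symPoly q k` at `√q (z + z⁻¹)` is `zᵏ + z⁻ᵏ`. -/
lemma aeval_symPoly {A : Type*} [CommRing A] [Algebra ℝ A] (q : ℕ) (hq : 0 < q) (z z' : A)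
    (hz : z * z' = 1) : ∀ k : ℕ,
    aeval (algebraMap ℝ A (Real.sqrt q) * (z + z')) (symPoly q k) = z ^ k + z' ^ k
  | 0 => by simp [symPoly, map_ofNat]; norm_num
  | 1 => by
    rw [symPoly, map_mul, aeval_C, aeval_X, ← mul_assoc, ← map_mul,
      inv_mul_cancel₀ (Real.sqrt_ne_zero'.2 (Nat.cast_pos.2 hq)), map_one, one_mul,
        pow_one, pow_one]
  | k + 2 => by
    rw [symPoly, map_sub, map_mul, map_mul, aeval_C, aeval_X, ← mul_assoc (algebraMap ℝ A _),
      ← map_mul, inv_mul_cancel₀ (Real.sqrt_ne_zero'.2 (Nat.cast_pos.2 hq)), map_one, one_mul,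
      aeval_symPoly q hq z z' hz (k + 1), aeval_symPoly q hq z z' hz k]
    linear_combination (z ^ k + z' ^ k) * hz

/-- If `f` takes the powers of `z` on `k ≥ 0` and of `z'` on `k ≤ 0`, then `z ^ |m| + z' ^ |m| = f m
+ f (-m)`. -/
lemma pow_natAbs_add {A : Type*} [Semiring A] (z z' : A) (f : ℤ → A)
    (hf : ∀ k : ℕ, f k = z ^ k ∧ f (-(k : ℤ)) = z' ^ k) (m : ℤ) :
    z ^ m.natAbs + z' ^ m.natAbs = f m + f (-m) := by
  obtain ⟨k, rfl | rfl⟩ := m.eq_nat_or_neg
  · rw [Int.natAbs_natCast, (hf k).1, (hf k).2]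
  · rw [Int.natAbs_neg, Int.natAbs_natCast, neg_neg, (hf k).1, (hf k).2, add_comm]

/-- The value at a Hecke eigenvalue. -/
theorem eval_halfSym (q : ℕ) (hq : 0 < q) {z : ℂ} (hz : z ≠ 0) (m : ℤ) :
    (halfSym q m).eval (((Real.sqrt q : ℝ) : ℂ) * (z + z⁻¹)) = (z ^ m + z ^ (-m)) / 2 := by
  have h := aeval_symPoly q hq z z⁻¹ (mul_inv_cancel₀ hz) m.natAbs
  rw [Complex.coe_algebraMap] at h
  rw [halfSym, Polynomial.eval_map, ← aeval_def, map_mul, aeval_C, h,
    pow_natAbs_add z z⁻¹ (fun j => z ^ j) (fun k => ⟨by simp, by simp⟩)]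
  simp
  ring

/-- The Satake transform of `halfSym q m` is `(T ^ m + T ^ -m) / 2`. -/
theorem sat_halfSym (q : ℕ) (hq : 0 < q) (m : ℤ) :
    sat q (halfSym q m) = LaurentPolynomial.C (1 / 2 : ℂ) * (T m + T (-m)) := by
  have h := aeval_symPoly (A := ℂ[T;T⁻¹]) q hq (T 1) (T (-1)) (by rw [← T_add]; simp) m.natAbs
  have hC : ∀ r : ℝ, algebraMap ℝ ℂ[T;T⁻¹] r = LaurentPolynomial.C ((r : ℝ) : ℂ) := fun r => rfl
  rw [hC] at h
  rw [sat, halfSym, aeval_map_algebraMap, map_mul, aeval_C, h, hC,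
    pow_natAbs_add (T 1) (T (-1)) (fun j => (T j : ℂ[T;T⁻¹])) (fun k => ⟨by simp, by simp⟩)]
  push_cast
  rfl

/-- The Satake coefficients of the half symmetrised monomial. -/
theorem coeff_sat_halfSym (q : ℕ) (hq : 0 < q) (m d : ℤ) :
    (sat q (halfSym q m)).coeff d = ((if d = m then (1 : ℂ) else 0) + if d = -m then
      1 else 0) / 2 := by
  rw [sat_halfSym q hq, mul_add, ← LaurentPolynomial.single_eq_C_mul_T,
    ← LaurentPolynomial.single_eq_C_mul_T, AddMonoidAlgebra.coeff_add, Finsupp.add_apply]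
  simp only [AddMonoidAlgebra.coeff_single, Finsupp.single_apply]
  split_ifs with h1 h2 h3 h4 <;> first | omega | norm_num

variable {F : Type*} [Field F] [NumberField F] {S : Lev F} {v : Place F}

/-- The orbit sum of a symmetrised monomial kernel. -/
theorem orbit_halfSym (hv : v ∉ S) (m : ℤ) (a : Fˣ) (y u : Vert S v) :
    ∑ᶠ c ∈ Set.range (fun x : F => upMat (1 : Fˣ) x • (upMat a 0 • u)),
        sphKer hv (halfSym (pnorm v) m) y c =
      ((Real.sqrt (pnorm v) : ℝ) : ℂ) ^ (ord (v.valuation F) (a : F) + hidx u - hidx y) *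
        (((if hidx y - hidx u - ord (v.valuation F) (a : F) = m then (1 : ℂ) else 0) +
          if hidx y - hidx u - ord (v.valuation F) (a : F) = -m then 1 else 0) / 2) := by
  rw [range_unip hv, show (∑ᶠ c ∈ {c : Vert S v | hidx c = hidx (upMat a 0 • u)},
      sphKer hv (halfSym (pnorm v) m) y c) = horoSum hv (halfSym (pnorm v) m) y
        (hidx (upMat a 0 • u)) from rfl, horoSum_eq, hidx_smul,
    coeff_sat_halfSym (pnorm v)
      (Nat.zero_lt_of_lt (HeightOneSpectrum.one_lt_absNorm v) : 0 < pnorm v),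
    show hidx y - (ord (v.valuation F) (a : F) + hidx u) =
      hidx y - hidx u - ord (v.valuation F) (a : F) by ring]

end Fermat.LTG.H
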